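import Mathlib

/-!
# S57 helper: the regular system of parameters `X₀, …, X_{r-1}, ϖ` of `𝒪⟦X₀, …, X_{r-1}⟧`
-/

set_option autoImplicit false

namespace Fermat.Agent.S57

open IsLocalRing RingTheory.Sequence

section General

variable {σ R : Type*} [CommRing R]

/-- The kernel of "kill the variables in `s`" consists of the power series all of whose
monomials involve a variable of `s`. -/
theorem mvps_mem_ker_killCompl_iff (s : Set σ) (f : MvPowerSeries σ R) :
    f ∈ RingHom.ker (MvPowerSeries.killCompl (R := R) (Function.Embedding.subtype (· ∉ s))) ↔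
      ∀ m : σ →₀ ℕ, (∀ j ∈ s, m j = 0) → MvPowerSeries.coeff m f = 0 := by
  rw [RingHom.mem_ker]
  constructor
  · intro h m hm
    have hmem : m ∈ Set.range (Finsupp.embDomain (Function.Embedding.subtype (· ∉ s))) := by
      rw [Finsupp.mem_range_embDomain_iff]
      intro j hj
      have hj' : m j ≠ 0 := by simpa using hj
      exact ⟨⟨j, fun hjs => hj' (hm j hjs)⟩, rfl⟩
    obtain ⟨x, rfl⟩ := hmem
    rw [← MvPowerSeries.coeff_killCompl, h, map_zero]
  · intro h
    ext x
    rw [MvPowerSeries.coeff_killCompl, map_zero]
    apply h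
    intro j hj
    rw [Finsupp.embDomain_of_notMem_range]
    rintro ⟨⟨j', hj'⟩, rfl⟩
    exact hj' hj

/-- The ideal generated by the variables in a finset `s` consists of the power series all
of whose monomials involve a variable of `s`. -/
theorem mvps_mem_span_X_image_iff (s : Finset σ) (f : MvPowerSeries σ R) :
    f ∈ Ideal.span ((MvPowerSeries.X : σ → MvPowerSeries σ R) '' (s : Set σ)) ↔
      ∀ m : σ →₀ ℕ, (∀ j ∈ s, m j = 0) → MvPowerSeries.coeff m f = 0 := by
  classical
  constructor
  · intro hf
    have hle : Ideal.span ((MvPowerSeries.X : σ → MvPowerSeries σ R) '' (s : Set σ)) ≤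
        RingHom.ker (MvPowerSeries.killCompl (R := R)
          (Function.Embedding.subtype (· ∉ (s : Set σ)))) := by
      rw [Ideal.span_le]
      rintro _ ⟨j, hj, rfl⟩
      rw [SetLike.mem_coe, RingHom.mem_ker]
      apply MvPowerSeries.killCompl_X_eq_zero
      rintro ⟨⟨j', hj'⟩, rfl⟩
      exact hj' hj
    exact (mvps_mem_ker_killCompl_iff _ f).mp (hle hf)
  · induction s using Finset.induction_on generalizing f with
    | empty =>
      intro h
      have hf0 : f = 0 := by
        ext m
        simpa using h m (by simp)
      rw [hf0]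
      exact zero_mem _
    | insert a t hat ih =>
      intro h
      set g : MvPowerSeries σ R := fun m => if m a = 0 then MvPowerSeries.coeff m f else 0
        with hg
      have hgc : ∀ m, MvPowerSeries.coeff m g =
          if m a = 0 then MvPowerSeries.coeff m f else 0 := fun m => rfl
      have h1 : f - g ∈ Ideal.span ((MvPowerSeries.X : σ → MvPowerSeries σ R) ''
          ((insert a t : Finset σ) : Set σ)) := by
        have hdvd : MvPowerSeries.X a ∣ f - g := by
          rw [MvPowerSeries.X_dvd_iff]
          intro m hm
          rw [map_sub, hgc, if_pos hm, sub_self]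
        refine Ideal.span_mono ?_ (Ideal.mem_span_singleton.mpr hdvd)
        rw [Set.singleton_subset_iff]
        exact ⟨a, by simp, rfl⟩
      have h2 : g ∈ Ideal.span ((MvPowerSeries.X : σ → MvPowerSeries σ R) '' (t : Set σ)) := by
        apply ih
        intro m hm
        rw [hgc]
        split_ifs with hma
        · apply h
          intro j hj
          rcases Finset.mem_insert.mp hj with rfl | hj
          exacts [hma, hm j hj]
        · rfl
      have h3 := Ideal.span_mono
        (Set.image_mono (Finset.coe_subset.mpr (Finset.subset_insert a t))) h2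
      have h4 := add_mem h1 h3
      rwa [sub_add_cancel] at h4

/-- The ideal generated by the variables in a finset `s` is the kernel of "kill the
variables in `s`". -/
theorem mvps_span_X_image_eq_ker (s : Finset σ) :
    Ideal.span ((MvPowerSeries.X : σ → MvPowerSeries σ R) '' (s : Set σ)) =
      RingHom.ker (MvPowerSeries.killCompl (R := R)
        (Function.Embedding.subtype (· ∉ (s : Set σ)))) := by
  ext f
  rw [mvps_mem_span_X_image_iff, mvps_mem_ker_killCompl_iff]
  rfl

/-- Over a domain, the ideal generated by a finset of variables is prime. -/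
theorem mvps_isPrime_span_X_image [IsDomain R] (s : Finset σ) :
    (Ideal.span ((MvPowerSeries.X : σ → MvPowerSeries σ R) '' (s : Set σ))).IsPrime := by
  rw [mvps_span_X_image_eq_ker]
  have : IsDomain (MvPowerSeries {j : σ // j ∉ (s : Set σ)} R) := NoZeroDivisors.to_isDomain _
  exact RingHom.ker_isPrime _

/-- If all the partial ideals of a list are prime and no entry lies in the ideal generated by
the previous ones, the list is a weakly regular sequence on the ring. -/
theorem isWeaklyRegular_self_of_isPrime_span_take {A : Type*} [CommRing A] (l : List A)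
    (hprime : ∀ k, k < l.length → (Ideal.span {x | x ∈ l.take k}).IsPrime)
    (hnot : ∀ k (hk : k < l.length), l[k] ∉ Ideal.span {x | x ∈ l.take k}) :
    IsWeaklyRegular A l := by
  refine ⟨fun k hk => ?_⟩
  rw [isSMulRegular_quotient_iff_mem_of_smul_mem]
  intro x hx
  rw [smul_eq_mul, Ideal.mul_top] at hx ⊢
  exact ((hprime k hk).mem_or_mem hx).resolve_left (hnot k hk)

end General

variable {𝒪 : Type} [CommRing 𝒪] [IsDomain 𝒪] [IsDiscreteValuationRing 𝒪]

/-- The list `X₀, …, X_{r-1}, C ϖ` in `MvPowerSeries (Fin r) 𝒪`. -/
noncomputable def paramList (r : ℕ) (ϖ : 𝒪) : List (MvPowerSeries (Fin r) 𝒪) :=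
  List.ofFn (fun i : Fin r => (MvPowerSeries.X i : MvPowerSeries (Fin r) 𝒪)) ++
    [(MvPowerSeries.C ϖ : MvPowerSeries (Fin r) 𝒪)]

set_option linter.unusedSectionVars false in
theorem paramList_length (r : ℕ) (ϖ : 𝒪) : (paramList r ϖ).length = r + 1 := by
  simp [paramList]

set_option linter.unusedSectionVars false in
theorem mem_paramList_iff (r : ℕ) (ϖ : 𝒪) (x : MvPowerSeries (Fin r) 𝒪) :
    x ∈ paramList r ϖ ↔ (∃ i : Fin r, x = MvPowerSeries.X i) ∨ x = MvPowerSeries.C ϖ := by
  simp [paramList, List.mem_ofFn, eq_comm]

set_option linter.unusedSectionVars false in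
/-- The first `i ≤ r` entries of the parameter list are the variables `X j` with `j < i`. -/
theorem setOf_mem_take_paramList (r : ℕ) (ϖ : 𝒪) (i : ℕ) (hi : i ≤ r) :
    {x | x ∈ (paramList r ϖ).take i} =
      (MvPowerSeries.X : Fin r → MvPowerSeries (Fin r) 𝒪) ''
        ((Finset.univ.filter (fun j : Fin r => j.val < i) : Finset (Fin r)) : Set (Fin r)) := by
  ext x
  rw [paramList, List.take_append_of_le_length (by simpa using hi)]
  simp only [Set.mem_ofPred_eq, List.mem_take_iff_getElem, List.length_ofFn, List.getElem_ofFn,
    Set.mem_image, Finset.coe_filter, Finset.mem_univ, true_and]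
  constructor
  · rintro ⟨j, hj, rfl⟩
    have hj' : j < i ∧ j < r := by omega
    exact ⟨⟨j, hj'.2⟩, hj'.1, rfl⟩
  · rintro ⟨j, hj, rfl⟩
    have hj' : j.val < min i r := by omega
    exact ⟨j.val, hj', rfl⟩

/-- Membership in the ideal generated by the first `i ≤ r` parameters, coefficientwise. -/
theorem mem_span_take_paramList_iff (r : ℕ) (ϖ : 𝒪) (i : ℕ) (hi : i ≤ r)
    (f : MvPowerSeries (Fin r) 𝒪) :
    f ∈ Ideal.span {x | x ∈ (paramList r ϖ).take i} ↔
      ∀ m : Fin r →₀ ℕ, (∀ j : Fin r, j.val < i → m j = 0) → MvPowerSeries.coeff m f = 0 := by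
  rw [setOf_mem_take_paramList r ϖ i hi, mvps_mem_span_X_image_iff]
  simp

/-- The parameters generate the maximal ideal. -/
theorem span_paramList (r : ℕ) {ϖ : 𝒪} (hϖ : Irreducible ϖ) :
    Ideal.span {x | x ∈ paramList r ϖ} = maximalIdeal (MvPowerSeries (Fin r) 𝒪) := by
  apply le_antisymm
  · rw [Ideal.span_le]
    intro x hx
    rw [Set.mem_ofPred_eq, mem_paramList_iff] at hx
    rw [SetLike.mem_coe, mem_maximalIdeal, mem_nonunits_iff,
      MvPowerSeries.isUnit_iff_constantCoeff]
    rcases hx with ⟨i, rfl⟩ | rfl
    · rw [MvPowerSeries.constantCoeff_X]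
      exact not_isUnit_zero
    · rw [MvPowerSeries.constantCoeff_C]
      exact hϖ.not_isUnit
  · intro f hf
    rw [mem_maximalIdeal, mem_nonunits_iff, MvPowerSeries.isUnit_iff_constantCoeff,
      ← mem_nonunits_iff, ← mem_maximalIdeal, hϖ.maximalIdeal_eq,
      Ideal.mem_span_singleton] at hf
    obtain ⟨a, ha⟩ := hf
    have h1 : f - MvPowerSeries.C (MvPowerSeries.constantCoeff f) ∈
        Ideal.span {x | x ∈ paramList r ϖ} := by
      have h1' : f - MvPowerSeries.C (MvPowerSeries.constantCoeff f) ∈
          Ideal.span {x | x ∈ (paramList r ϖ).take r} := by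
        rw [mem_span_take_paramList_iff r ϖ r le_rfl]
        intro m hm
        have hm0 : m = 0 := by
          ext j
          exact hm j j.isLt
        subst hm0
        simp
      refine Ideal.span_mono ?_ h1'
      intro x hx
      exact List.mem_of_mem_take hx
    have h2 : MvPowerSeries.C (MvPowerSeries.constantCoeff f) ∈
        Ideal.span {x | x ∈ paramList r ϖ} := by
      rw [ha, map_mul]
      apply Ideal.mul_mem_right
      apply Ideal.subset_span
      rw [Set.mem_ofPred_eq, mem_paramList_iff]
      exact Or.inr rfl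
    have h3 := add_mem h1 h2
    rwa [sub_add_cancel] at h3

/-- All partial ideals `(X₀, …, X_{i-1})` (and the full one) are prime. -/
theorem isPrime_span_take_paramList (r : ℕ) {ϖ : 𝒪} (hϖ : Irreducible ϖ) (i : ℕ)
    (hi : i ≤ r + 1) : (Ideal.span {x | x ∈ (paramList r ϖ).take i}).IsPrime := by
  rcases Nat.lt_or_ge r i with h | h
  · have hir : i = r + 1 := by omega
    rw [List.take_of_length_le (by rw [paramList_length]; omega), span_paramList r hϖ]
    exact (IsLocalRing.maximalIdeal.isMaximal _).isPrime
  · rw [setOf_mem_take_paramList r ϖ i h]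
    exact mvps_isPrime_span_X_image _

/-- The parameters form a weakly regular sequence on the ring itself. -/
theorem isWeaklyRegular_paramList (r : ℕ) {ϖ : 𝒪} (hϖ : Irreducible ϖ) :
    IsWeaklyRegular (MvPowerSeries (Fin r) 𝒪) (paramList r ϖ) := by
  classical
  apply isWeaklyRegular_self_of_isPrime_span_take
  · intro k hk
    rw [paramList_length] at hk
    exact isPrime_span_take_paramList r hϖ k hk.le
  · intro k hk
    have hk' : k ≤ r := by
      rw [paramList_length] at hk
      omega
    rw [mem_span_take_paramList_iff r ϖ k hk']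
    intro hmem
    rcases Nat.lt_or_ge k r with hlt | hge
    · have hget : (paramList r ϖ)[k] = MvPowerSeries.X (⟨k, hlt⟩ : Fin r) := by
        simp only [paramList]
        rw [List.getElem_append_left (by simpa using hlt), List.getElem_ofFn]
      rw [hget] at hmem
      have h0 := hmem (Finsupp.single (⟨k, hlt⟩ : Fin r) 1) (by
        intro j hj
        rw [Finsupp.single_apply, if_neg]
        intro hjk
        rw [← hjk] at hj
        exact lt_irrefl _ hj)
      rw [MvPowerSeries.coeff_X, if_pos rfl] at h0
      exact one_ne_zero h0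
    · have hkr : k = r := le_antisymm hk' hge
      subst hkr
      have hget : (paramList k ϖ)[k] = MvPowerSeries.C ϖ := by
        simp only [paramList]
        rw [List.getElem_append_right (by simp)]
        simp
      rw [hget] at hmem
      have h0 := hmem 0 (by simp)
      rw [MvPowerSeries.coeff_C, if_pos rfl] at h0
      exact hϖ.ne_zero h0

end Fermat.Agent.S57
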