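import Mathlib

/-!
# S57 helper: depth bounds coheight of associated primes (Matsumura 17.2 style)

If `rs` is a weakly regular sequence on a finite module `M` over a Noetherian local ring `R`,
contained in the maximal ideal, and `P` is an associated prime of `M`, then there is a chain of
primes of length `rs.length` starting at `P`.
-/

set_option autoImplicit false

namespace Fermat.Agent.S57

open IsLocalRing RingTheory.Sequence

open scoped Pointwise

/-- Key step for Lemma D: if `a` is an `M`-regular element of the maximal ideal and `P` is an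
associated prime of `M`, then some associated prime of `M ⧸ a M` strictly contains `P`. -/
theorem exists_associatedPrime_quotSMulTop_gt
    {R : Type*} [CommRing R] [IsNoetherianRing R] [IsLocalRing R]
    {M : Type*} [AddCommGroup M] [Module R M] [Module.Finite R M]
    {a : R} (ha : a ∈ maximalIdeal R) (hreg : IsSMulRegular M a)
    (P : PrimeSpectrum R) (hP : P.asIdeal ∈ associatedPrimes R M) :
    ∃ Q : PrimeSpectrum R, Q.asIdeal ∈ associatedPrimes R (QuotSMulTop a M) ∧ P < Q := by
  rw [AssociatedPrimes.mem_iff, isAssociatedPrime_iff] at hP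
  obtain ⟨hPprime, u, hu⟩ := hP
  have hu' : ∀ p : R, p ∈ P.asIdeal ↔ p • u = 0 := by
    intro p
    rw [hu, Submodule.mem_colon_singleton, Submodule.mem_bot]
  have hu0 : u ≠ 0 := by
    rintro rfl
    apply hPprime.ne_top
    rw [Ideal.eq_top_iff_one, hu']
    simp
  -- the submodule of elements killed by `P`
  let T : Submodule R M :=
    { carrier := {v | ∀ p ∈ P.asIdeal, p • v = 0}
      add_mem' := fun {x y} hx hy p hp => by rw [smul_add, hx p hp, hy p hp, add_zero]
      zero_mem' := fun p _ => smul_zero p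
      smul_mem' := fun c x hx p hp => by rw [smul_comm, hx p hp, smul_zero] }
  have hTu : u ∈ T := fun p hp => (hu' p).1 hp
  have hclaim : ∃ v ∈ T, v ∉ (a • ⊤ : Submodule R M) := by
    by_contra hcon
    push Not at hcon
    have hle : T ≤ Ideal.span {a} • T := by
      intro v hv
      obtain ⟨v', -, rfl⟩ := hcon v hv
      have hv' : v' ∈ T := by
        intro p hp
        apply hreg
        have := hv p hp
        simp only [smul_zero]
        rw [smul_comm]
        exact this
      exact Submodule.smul_mem_smul (Ideal.mem_span_singleton_self a) hv'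
    have hT : T = ⊥ :=
      Submodule.eq_bot_of_le_smul_of_le_jacobson_bot (Ideal.span {a}) T
        (IsNoetherian.noetherian T) hle (by
          rw [Ideal.span_singleton_le_iff_mem,
            IsLocalRing.jacobson_eq_maximalIdeal ⊥ bot_ne_top]
          exact ha)
    exact hu0 (by simpa [hT] using hTu)
  obtain ⟨v, hvT, hva⟩ := hclaim
  have hvbar0 : (Submodule.Quotient.mk v : QuotSMulTop a M) ≠ 0 := by
    rwa [Ne, Submodule.Quotient.mk_eq_zero]
  obtain ⟨Q, hQ, hQle⟩ := exists_le_isAssociatedPrime_of_isNoetherianRing R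
    (Submodule.Quotient.mk v : QuotSMulTop a M) hvbar0
  have hQprime : Q.IsPrime := hQ.isPrime
  refine ⟨⟨Q, hQprime⟩, hQ, ?_⟩
  have hPQ : P.asIdeal ≤ Q := fun p hp => hQle (by
    rw [Submodule.mem_colon_singleton, Submodule.mem_bot, ← Submodule.Quotient.mk_smul,
      hvT p hp, Submodule.Quotient.mk_zero])
  have haQ : a ∈ Q := hQle (by
    rw [Submodule.mem_colon_singleton, Submodule.mem_bot, ← Submodule.Quotient.mk_smul,
      Submodule.Quotient.mk_eq_zero]
    exact Submodule.smul_mem_pointwise_smul _ _ _ Submodule.mem_top)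
  have haP : a ∉ P.asIdeal := by
    intro haP
    rw [hu'] at haP
    exact hu0 (hreg (by simpa using haP))
  rw [← PrimeSpectrum.asIdeal_lt_asIdeal]
  exact lt_of_le_of_ne hPQ (fun h => haP (h ▸ haQ))

/-- Lemma D. -/
theorem length_le_coheight_of_isWeaklyRegular
    {R : Type*} [CommRing R] [IsNoetherianRing R] [IsLocalRing R]
    {M : Type*} [AddCommGroup M] [Module R M] [Module.Finite R M]
    (rs : List R) (hmem : ∀ r ∈ rs, r ∈ maximalIdeal R) (hreg : IsWeaklyRegular M rs)
    (P : PrimeSpectrum R) (hP : P.asIdeal ∈ associatedPrimes R M) :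
    (rs.length : ℕ∞) ≤ Order.coheight P := by
  induction rs generalizing M P with
  | nil => simp
  | cons a rs ih =>
    obtain ⟨ha, hrs⟩ := (isWeaklyRegular_cons_iff M a rs).1 hreg
    obtain ⟨Q, hQ, hPQ⟩ := exists_associatedPrime_quotSMulTop_gt
      (hmem a List.mem_cons_self) ha P hP
    have hih := ih (fun r hr => hmem r (List.mem_cons_of_mem a hr)) hrs Q hQ
    calc ((a :: rs).length : ℕ∞) = (rs.length : ℕ∞) + 1 := by
          rw [List.length_cons, Nat.cast_add, Nat.cast_one]
      _ ≤ Order.coheight Q + 1 := by gcongr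
      _ ≤ Order.coheight P := Order.coheight_add_one_le hPQ

/-- Corollary D': over a Noetherian local domain of Krull dimension `≤ n`, a finite module with a
weakly regular sequence of length `n` in the maximal ideal is torsion-free. -/
theorem isSMulRegular_of_isWeaklyRegular_of_ringKrullDim_le
    {R : Type*} [CommRing R] [IsDomain R] [IsNoetherianRing R] [IsLocalRing R]
    {M : Type*} [AddCommGroup M] [Module R M] [Module.Finite R M]
    (rs : List R) (hmem : ∀ r ∈ rs, r ∈ maximalIdeal R) (hreg : IsWeaklyRegular M rs)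
    (hdim : ringKrullDim R ≤ (rs.length : WithBot ℕ∞)) {x : R} (hx : x ≠ 0) :
    IsSMulRegular M x := by
  rw [isSMulRegular_iff_right_eq_zero_of_smul]
  intro m hm
  by_contra hm0
  obtain ⟨Q, hQ, hQle⟩ := exists_le_isAssociatedPrime_of_isNoetherianRing R m hm0
  have hQprime : Q.IsPrime := hQ.isPrime
  have hxQ : x ∈ Q := hQle (by
    rw [Submodule.mem_colon_singleton, Submodule.mem_bot]
    exact hm)
  have h1 := length_le_coheight_of_isWeaklyRegular rs hmem hreg ⟨Q, hQprime⟩ hQ
  have hQbot : Q ≠ ⊥ := fun h => hx (by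
    rw [h, Ideal.mem_bot] at hxQ
    exact hxQ)
  have hlt : (⟨⊥, Ideal.isPrime_bot⟩ : PrimeSpectrum R) < ⟨Q, hQprime⟩ := by
    rw [← PrimeSpectrum.asIdeal_lt_asIdeal]
    exact bot_lt_iff_ne_bot.2 hQbot
  have h2 := Order.coheight_add_one_le hlt
  have h3 := Order.coheight_le_krullDim (⟨⊥, Ideal.isPrime_bot⟩ : PrimeSpectrum R)
  have h4 : (((rs.length : ℕ∞) + 1 : ℕ∞) : WithBot ℕ∞) ≤ ((rs.length : ℕ∞) : WithBot ℕ∞) :=
    (WithBot.coe_le_coe.2 ((add_le_add_left h1 1).trans h2)).trans (h3.trans hdim)
  rw [WithBot.coe_le_coe] at h4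
  have h5 : ((rs.length + 1 : ℕ) : ℕ∞) ≤ (rs.length : ℕ∞) := by
    rw [Nat.cast_add, Nat.cast_one]
    exact h4
  rw [Nat.cast_le] at h5
  omega

/-- Corollary D'': if the regular sequence is longer than the Krull dimension, the module is
trivial. -/
theorem subsingleton_of_isWeaklyRegular_of_ringKrullDim_lt
    {R : Type*} [CommRing R] [IsNoetherianRing R] [IsLocalRing R]
    {M : Type*} [AddCommGroup M] [Module R M] [Module.Finite R M]
    (rs : List R) (hmem : ∀ r ∈ rs, r ∈ maximalIdeal R) (hreg : IsWeaklyRegular M rs)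
    (hdim : ringKrullDim R < (rs.length : WithBot ℕ∞)) :
    Subsingleton M := by
  by_contra hns
  rw [not_subsingleton_iff_nontrivial] at hns
  obtain ⟨Q, hQ⟩ := associatedPrimes.nonempty R M
  have hQprime : Q.IsPrime := hQ.isPrime
  have h1 := length_le_coheight_of_isWeaklyRegular rs hmem hreg ⟨Q, hQprime⟩ hQ
  have h3 := Order.coheight_le_krullDim (⟨Q, hQprime⟩ : PrimeSpectrum R)
  have h4 : ((rs.length : ℕ∞) : WithBot ℕ∞) ≤ ringKrullDim R :=
    (WithBot.coe_le_coe.2 h1).trans h3
  exact absurd hdim (not_lt.2 h4)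

end Fermat.Agent.S57
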