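import Mathlib

/-!
# S57 helper: depth drops by exactly one modulo a regular element (via Rees' theorem)
-/

set_option autoImplicit false

namespace Fermat.Agent.S57

open IsLocalRing RingTheory.Sequence

/-- Nakayama: for a nontrivial finite module `M` over a local ring, `𝔪 • ⊤ < ⊤`. -/
theorem depthDescent_maximalIdeal_smul_top_lt_top
    {R : Type} [CommRing R] [IsLocalRing R]
    (M : Type) [AddCommGroup M] [Module R M] [Module.Finite R M] [Nontrivial M] :
    maximalIdeal R • (⊤ : Submodule R M) < ⊤ :=
  lt_top_iff_ne_top.mpr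
    (Submodule.top_ne_ideal_smul_of_le_jacobson_annihilator (maximalIdeal_le_jacobson _)).symm

/-- Lemma E.  If a finite module `M` over a Noetherian local ring has a regular sequence of length
`n + 1` in the maximal ideal and `x` in the maximal ideal is `M`-regular, then `M / xM` has a
regular sequence of length `n` in the maximal ideal.  (Uses `ModuleCat.exists_isRegular_tfae`
and the long exact `Ext` sequence.) -/
theorem exists_isRegular_quotSMulTop
    {R : Type} [CommRing R] [IsNoetherianRing R] [IsLocalRing R]
    {M : Type} [AddCommGroup M] [Module R M] [Module.Finite R M]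
    (n : ℕ) (rs : List R) (hlen : rs.length = n + 1)
    (hmem : ∀ r ∈ rs, r ∈ maximalIdeal R) (hreg : IsRegular M rs)
    {x : R} (hx : x ∈ maximalIdeal R) (hxreg : IsSMulRegular M x) :
    ∃ rs' : List R, rs'.length = n ∧ (∀ r ∈ rs', r ∈ maximalIdeal R) ∧
      IsRegular (QuotSMulTop x M) rs' := by
  have : Nontrivial M := hreg.nontrivial
  have : Nontrivial (QuotSMulTop x M) := nontrivial_quotSMulTop_of_mem_maximalIdeal M hx
  -- Rees' theorem for `M` and `n + 1`, and for `M / xM` and `n`
  have tfaeM := (ModuleCat.exists_isRegular_tfae (maximalIdeal R) (n + 1) (ModuleCat.of R M)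
    (depthDescent_maximalIdeal_smul_top_lt_top M)).out 3 1
  have tfaeQ := (ModuleCat.exists_isRegular_tfae (maximalIdeal R) n
    (ModuleCat.of R (QuotSMulTop x M)) (depthDescent_maximalIdeal_smul_top_lt_top _)).out 1 3
  -- direction (4) → (2), for `M` and `n + 1`
  have h1 := tfaeM.mp ⟨rs, hlen, hmem, hreg⟩
  -- direction (2) → (4), for `M / xM` and `n`
  refine tfaeQ.mp ?_
  intro i hi
  -- the covariant long exact `Ext` sequence of `0 → M → M → M / xM → 0`
  have hx' : IsSMulRegular (ModuleCat.of R M) x := hxreg
  have zero1 := AddCommGrpCat.isZero_of_iff_subsingleton.mpr (h1 i (by omega))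
  have zero2 := AddCommGrpCat.isZero_of_iff_subsingleton.mpr (h1 (i + 1) (by omega))
  exact AddCommGrpCat.subsingleton_of_isZero <|
    CategoryTheory.ShortComplex.Exact.isZero_of_both_zeros
      ((CategoryTheory.Abelian.Ext.covariant_sequence_exact₃' _
        hx'.smulShortComplex_shortExact) i (i + 1) rfl)
      (zero1.eq_zero_of_src _) (zero2.eq_zero_of_tgt _)

end Fermat.Agent.S57
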