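import Mathlib
import Fermat.Agent.S57.AssChain
import Fermat.Agent.S57.DepthDescent

/-!
# S57 helper: maximal-depth modules over a "regular local ring with prime parameter flags" are free
-/

set_option autoImplicit false

namespace Fermat.Agent.S57

open IsLocalRing RingTheory.Sequence

/-- Over a local ring whose maximal ideal is zero (i.e. a field), every module is free. -/
theorem free_of_maximalIdeal_eq_bot
    {R : Type} [CommRing R] [IsLocalRing R]
    {M : Type} [AddCommGroup M] [Module R M] (h : maximalIdeal R = ⊥) : Module.Free R M := by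
  have hfield : IsField R := IsLocalRing.isField_iff_maximalIdeal_eq.mpr h
  let _ := hfield.toField
  exact Module.Free.of_divisionRing R M

/-- The Krull dimension of a Noetherian local ring is at most the length of any list generating
the maximal ideal. -/
theorem ringKrullDim_le_length_of_span_eq_maximalIdeal
    {R : Type} [CommRing R] [IsNoetherianRing R] [IsLocalRing R]
    (xs : List R) (hspan : Ideal.span {r | r ∈ xs} = maximalIdeal R) :
    ringKrullDim R ≤ (xs.length : WithBot ℕ∞) := by
  classical
  refine (ringKrullDim_le_spanFinrank_maximalIdeal R).trans ?_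
  have h1 : (maximalIdeal R).spanFinrank ≤ xs.length := by
    rw [← hspan]
    have hfin : ({r | r ∈ xs} : Set R).Finite := List.finite_toSet xs
    refine (Submodule.spanFinrank_span_le_ncard_of_finite hfin).trans ?_
    have : ({r | r ∈ xs} : Set R) = ↑xs.toFinset := by
      ext r
      simp
    rw [this, Set.ncard_coe_finset]
    exact List.toFinset_card_le xs
  exact_mod_cast h1

/-- The inductive step of Theorem F. -/
theorem free_of_isWeaklyRegular_of_length_eq_step {n : ℕ}
    (ih : ∀ {R : Type} [CommRing R] [IsNoetherianRing R] [IsLocalRing R]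
      {M : Type} [AddCommGroup M] [Module R M] [Module.Finite R M]
      (xs : List R), xs.length = n →
      Ideal.span {r | r ∈ xs} = maximalIdeal R →
      (∀ i ≤ n, (Ideal.span {r | r ∈ xs.take i}).IsPrime) →
      ∀ (rs : List R), rs.length = n → (∀ r ∈ rs, r ∈ maximalIdeal R) →
      IsWeaklyRegular M rs → Module.Free R M)
    {R : Type} [CommRing R] [IsNoetherianRing R] [IsLocalRing R]
    {M : Type} [AddCommGroup M] [Module R M] [Module.Finite R M] [Nontrivial M]
    (x : R) (xs : List R) (hlen : xs.length = n)
    (hspan : Ideal.span {r | r ∈ x :: xs} = maximalIdeal R)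
    (hprime : ∀ i ≤ n + 1, (Ideal.span {r | r ∈ (x :: xs).take i}).IsPrime)
    (rs : List R) (hrs : rs.length = n + 1) (hmem : ∀ r ∈ rs, r ∈ maximalIdeal R)
    (hreg : IsWeaklyRegular M rs) : Module.Free R M := by
  -- `R` is a domain
  have hdom : IsDomain R := by
    have h0 := hprime 0 (Nat.zero_le _)
    rw [List.take_zero] at h0
    have hbot : Ideal.span {r : R | r ∈ ([] : List R)} = ⊥ := Ideal.ofList_nil
    rw [hbot] at h0
    exact @IsDomain.of_bot_isPrime R _ h0
  -- `dim R ≤ n + 1`
  have hdim : ringKrullDim R ≤ ((n + 1 : ℕ) : WithBot ℕ∞) := by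
    have := ringKrullDim_le_length_of_span_eq_maximalIdeal (x :: xs) hspan
    rwa [List.length_cons, hlen] at this
  have hxmem : x ∈ maximalIdeal R := by
    rw [← hspan]
    exact Ideal.subset_span (by simp)
  -- `x ≠ 0`
  have hx0 : x ≠ 0 := by
    rintro rfl
    have hspan' : Ideal.span {r | r ∈ xs} = maximalIdeal R := by
      rw [← hspan]
      change Ideal.ofList xs = Ideal.ofList (0 :: xs)
      rw [Ideal.ofList_cons]
      simp
    have hdim' := ringKrullDim_le_length_of_span_eq_maximalIdeal xs hspan'
    have hlt : ringKrullDim R < (rs.length : WithBot ℕ∞) := by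
      refine lt_of_le_of_lt hdim' ?_
      rw [hlen, hrs]
      exact_mod_cast Nat.lt_succ_self n
    have := subsingleton_of_isWeaklyRegular_of_ringKrullDim_lt rs hmem hreg hlt
    exact not_subsingleton M this
  have hxreg : IsSMulRegular M x :=
    isSMulRegular_of_isWeaklyRegular_of_ringKrullDim_le rs hmem hreg (by rw [hrs]; exact hdim) hx0
  have hreg' : IsRegular M rs := IsRegular.of_isWeaklyRegular_of_mem_maximalIdeal M hmem hreg
  obtain ⟨rs', hrs'len, hrs'mem, hrs'reg⟩ :=
    exists_isRegular_quotSMulTop n rs hrs hmem hreg' hxmem hxreg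
  -- the quotient ring
  have hxne : Ideal.span {x} ≠ ⊤ := by
    intro h
    have hle : Ideal.span {x} ≤ maximalIdeal R := (Ideal.span_singleton_le_iff_mem _).mpr hxmem
    rw [h] at hle
    exact (maximalIdeal.isMaximal R).ne_top (top_le_iff.mp hle)
  have : Nontrivial (R ⧸ Ideal.span {x}) := Ideal.Quotient.nontrivial_iff.mpr hxne
  have : IsLocalRing (R ⧸ Ideal.span {x}) :=
    IsLocalRing.of_surjective' (Ideal.Quotient.mk _) Ideal.Quotient.mk_surjective
  have : Module.Finite (R ⧸ Ideal.span {x}) (QuotSMulTop x M) :=
    Module.Finite.of_restrictScalars_finite R _ _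
  have : Module.FinitePresentation R M := Module.finitePresentation_of_finite R M
  have hmax : (maximalIdeal R).map (Ideal.Quotient.mk (Ideal.span {x})) =
      maximalIdeal (R ⧸ Ideal.span {x}) :=
    IsLocalRing.map_maximalIdeal_of_surjective _ Ideal.Quotient.mk_surjective
  have hker : (Ideal.span {x}).map (Ideal.Quotient.mk (Ideal.span {x})) = ⊥ :=
    Ideal.map_quotient_self _
  have key : ∀ l : List R,
      Ideal.span {r | r ∈ l.map (Ideal.Quotient.mk (Ideal.span {x}))} =
        (Ideal.span {r | r ∈ x :: l}).map (Ideal.Quotient.mk (Ideal.span {x})) := by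
    intro l
    change Ideal.ofList _ = Ideal.map _ (Ideal.ofList (x :: l))
    rw [Ideal.ofList_cons, Ideal.map_sup, hker, bot_sup_eq, Ideal.map_ofList]
  refine (Module.free_quotSMulTop_iff_free R M (x := x) ?_ hxreg).mp ?_
  · exact IsLocalRing.maximalIdeal_le_jacobson ⊥ hxmem
  · refine ih (xs.map (Ideal.Quotient.mk (Ideal.span {x}))) (by simpa using hlen) ?_ ?_
      (rs'.map (Ideal.Quotient.mk (Ideal.span {x}))) (by simpa using hrs'len) ?_ ?_
    · rw [key, hspan, hmax]
    · intro i hi
      rw [← List.map_take, key]
      have hp : (Ideal.span {r | r ∈ x :: List.take i xs}).IsPrime := by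
        have := hprime (i + 1) (by omega)
        rwa [List.take_succ_cons] at this
      refine Ideal.map_isPrime_of_surjective Ideal.Quotient.mk_surjective ?_
      rw [Ideal.mk_ker]
      exact Ideal.span_mono (by simp)
    · intro r hr
      obtain ⟨r', hr', rfl⟩ := List.mem_map.mp hr
      rw [← hmax]
      exact Ideal.mem_map_of_mem _ (hrs'mem r' hr')
    · exact (isWeaklyRegular_map_algebraMap_iff (R ⧸ Ideal.span {x}) (QuotSMulTop x M) rs').mpr
        hrs'reg.toIsWeaklyRegular

/-- Theorem F.  Let `R` be a Noetherian local ring whose maximal ideal is generated by a list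
`xs` of length `n` such that all the partial ideals `(xs.take i)` are prime.  Then every finite
`R`-module which has a weakly regular sequence of length `n` inside the maximal ideal is free. -/
theorem free_of_isWeaklyRegular_of_length_eq :
    ∀ (n : ℕ) {R : Type} [CommRing R] [IsNoetherianRing R] [IsLocalRing R]
      {M : Type} [AddCommGroup M] [Module R M] [Module.Finite R M]
      (xs : List R), xs.length = n →
      Ideal.span {r | r ∈ xs} = maximalIdeal R →
      (∀ i ≤ n, (Ideal.span {r | r ∈ xs.take i}).IsPrime) →
      ∀ (rs : List R), rs.length = n → (∀ r ∈ rs, r ∈ maximalIdeal R) →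
      IsWeaklyRegular M rs → Module.Free R M := by
  intro n
  induction n with
  | zero =>
    intro R _ _ _ M _ _ _ xs hlen hspan _ _ _ _ _
    obtain rfl : xs = [] := List.length_eq_zero_iff.mp hlen
    have hbot : maximalIdeal R = ⊥ := by
      rw [← hspan]
      exact Ideal.ofList_nil
    exact free_of_maximalIdeal_eq_bot hbot
  | succ n ih =>
    intro R _ _ _ M _ _ _ xs hlen hspan hprime rs hrs hmem hreg
    obtain ⟨x, xs', rfl⟩ := List.exists_cons_of_length_eq_add_one hlen
    rcases subsingleton_or_nontrivial M with hM | hM
    · exact Module.Free.of_subsingleton R M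
    · exact free_of_isWeaklyRegular_of_length_eq_step (fun {R} _ _ _ {M} _ _ _ => ih) x xs'
        (by simpa using hlen) hspan hprime rs hrs hmem hreg

end Fermat.Agent.S57
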