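import Mathlib

/-!
# S57 helper: transporting a regular sequence along a ring hom over which a module is free
-/

set_option autoImplicit false

namespace Fermat.Agent.S57

open RingTheory.Sequence

/-- A weakly regular sequence on a ring stays weakly regular on a finite free module. -/
theorem isWeaklyRegular_pi_of_isWeaklyRegular_self
    {A : Type} [CommRing A] (d : ℕ) (rs : List A) (hrs : IsWeaklyRegular A rs) :
    IsWeaklyRegular (Fin d → A) rs :=
  ((TensorProduct.rid A (Fin d → A)).isWeaklyRegular_congr rs).mp
    (hrs.isWeaklyRegular_lTensor (M₂ := Fin d → A))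

/-- If `N` is a `B`-module which is free of finite rank over `A` through `g : A →+* B`
(with basis `b`, expressed by `hspan` and `hrel`), then every weakly regular sequence on `A`
maps to a weakly regular sequence on the `B`-module `N`. -/
theorem isWeaklyRegular_map_of_free_via
    {A B : Type} [CommRing A] [CommRing B] (g : A →+* B)
    {N : Type} [AddCommGroup N] [Module B N] {d : ℕ} (b : Fin d → N)
    (hspan : ∀ x : N, ∃ c : Fin d → A, x = ∑ i, g (c i) • b i)
    (hrel : ∀ c : Fin d → A, ∑ i, g (c i) • b i = 0 ↔ ∀ i, c i = 0)
    (rs : List A) (hrs : IsWeaklyRegular A rs) :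
    IsWeaklyRegular N (rs.map g) := by
  -- the comparison map
  let f : (Fin d → A) →+ N :=
    { toFun := fun c => ∑ i, g (c i) • b i
      map_zero' := by simp
      map_add' := fun c c' => by
        simp only [Pi.add_apply, map_add, add_smul, Finset.sum_add_distrib] }
  have hf : ∀ c : Fin d → A, f c = ∑ i, g (c i) • b i := fun _ => rfl
  have hinj : Function.Injective f := by
    rw [injective_iff_map_eq_zero]
    intro c hc
    rw [hf] at hc
    exact funext ((hrel c).mp hc)
  have hsurj : Function.Surjective f := fun x => by
    obtain ⟨c, hc⟩ := hspan x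
    exact ⟨c, hc.symm⟩
  let e : (Fin d → A) ≃+ N := AddEquiv.ofBijective f ⟨hinj, hsurj⟩
  have hsmul : ∀ (a : A) (c : Fin d → A), e (a • c) = g a • e c := by
    intro a c
    change f (a • c) = g a • f c
    simp only [hf, Pi.smul_apply, smul_eq_mul, map_mul, mul_smul, Finset.smul_sum]
  refine (AddEquiv.isWeaklyRegular_congr (e := e) ?_).mp
    (isWeaklyRegular_pi_of_isWeaklyRegular_self d rs hrs)
  exact List.forall₂_map_right_iff.mpr <| List.forall₂_same.mpr fun r _ x => hsmul r x

end Fermat.Agent.S57
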